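/-
S48 (Deligne–Serre), seat INT (helper98): the formal part.
* `int_isIntegral_of_span`: a sequence with values in a finitely generated `ℤ`-module satisfying
  the Hecke relation at `p` has `a p` integral over `ℤ`;
* `int_linearIndependent`: eigen-sequences of the formal Hecke operators with pairwise distinct
  systems of eigenvalues are linearly independent.
Mathlib only.
-/
import Mathlib

set_option autoImplicit false

noncomputable section

namespace Fermat.Agent.S48Int

/-- **Integrality.**  If all `a n` lie in the `ℤ`-span of finitely many complex numbers,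
`ζ` is a root of unity and `a (p n) + ζ [p ∣ n] a (n / p) = a p · a n`, then `a p` is an
algebraic integer. -/
theorem int_isIntegral_of_span {r : ℕ} (x : Fin r → ℂ) (a : ℕ → ℂ)
    (ha : ∀ n, a n ∈ Submodule.span ℤ (Set.range x))
    (ζ : ℂ) (n₀ : ℕ) (hn₀ : 0 < n₀) (hζ : ζ ^ n₀ = 1) (p : ℕ) (hp : 1 < p) (ha1 : a 1 = 1)
    (hrel : ∀ n, a (p * n) + ζ * (if p ∣ n then a (n / p) else 0) = a p * a n) :
    IsIntegral ℤ (a p) := by
  classical
  -- the module `P` spanned by the `ζ^i a(p^k)`
  set P : Submodule ℤ ℂ := Submodule.span ℤ {y | ∃ i k : ℕ, y = ζ ^ i * a (p ^ k)} with hP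
  set M' : Submodule ℤ ℂ :=
    Submodule.span ℤ (Set.range fun ij : Fin n₀ × Fin r => ζ ^ (ij.1 : ℕ) * x ij.2) with hM'
  have hM'fg : M'.FG := Submodule.fg_span (Set.finite_range _)
  have hζpow : ∀ i : ℕ, ζ ^ i = ζ ^ (i % n₀) := by
    intro i
    conv_lhs => rw [← Nat.div_add_mod i n₀, pow_add, pow_mul, hζ, one_pow, one_mul]
  have hmul : ∀ (i : ℕ) (y : ℂ), y ∈ Submodule.span ℤ (Set.range x) → ζ ^ i * y ∈ M' := by
    intro i y hy
    induction hy using Submodule.span_induction with
    | mem y hy =>
      obtain ⟨j, rfl⟩ := hy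
      rw [hζpow i]
      exact Submodule.subset_span ⟨(⟨i % n₀, Nat.mod_lt i hn₀⟩, j), rfl⟩
    | zero => rw [mul_zero]; exact zero_mem _
    | add y z _ _ hy hz => rw [mul_add]; exact add_mem hy hz
    | smul c y _ hy =>
      rw [mul_smul_comm]
      exact Submodule.smul_mem _ c hy
  have hPle : P ≤ M' := by
    rw [hP, Submodule.span_le]
    rintro y ⟨i, k, rfl⟩
    exact hmul i _ (ha _)
  have hPfg : P.FG := Submodule.FG.of_le hM'fg hPle
  have hone : (1 : ℂ) ∈ P := by
    refine Submodule.subset_span ⟨0, 0, ?_⟩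
    rw [pow_zero, pow_zero, ha1, one_mul]
  have hPne : P ≠ ⊥ := by
    intro h
    rw [h, Submodule.mem_bot] at hone
    exact one_ne_zero hone
  have hgen : ∀ i k : ℕ, ζ ^ i * a (p ^ k) ∈ P := fun i k => Submodule.subset_span ⟨i, k, rfl⟩
  have hstab : ∀ n ∈ P, a p • n ∈ P := by
    intro n hn
    induction hn using Submodule.span_induction with
    | mem y hy =>
      obtain ⟨i, k, rfl⟩ := hy
      rw [smul_eq_mul, mul_left_comm, ← hrel]
      rcases k with _ | k
      · have h1 : ¬ p ∣ p ^ 0 := by
          rw [pow_zero, Nat.dvd_one]; omega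
        rw [if_neg h1, mul_zero, add_zero]
        have : p * p ^ 0 = p ^ 1 := by rw [pow_zero, pow_one, mul_one]
        rw [this]
        exact hgen i 1
      · have h1 : p ∣ p ^ (k + 1) := dvd_pow_self p (Nat.succ_ne_zero k)
        have h2 : p ^ (k + 1) / p = p ^ k := by
          rw [pow_succ, Nat.mul_div_cancel _ (by omega : 0 < p)]
        have h3 : p * p ^ (k + 1) = p ^ (k + 2) := by ring
        rw [if_pos h1, h2, h3, mul_add, ← mul_assoc, ← pow_succ]
        exact add_mem (hgen i (k + 2)) (hgen (i + 1) k)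
    | zero => rw [smul_zero]; exact zero_mem _
    | add y z _ _ hy hz => rw [smul_add]; exact add_mem hy hz
    | smul c y _ hy =>
      rw [smul_comm]
      exact Submodule.smul_mem _ c hy
  exact isIntegral_of_smul_mem_submodule P hPne hPfg (a p) hstab

/-- the formal Hecke operator `T_p^ψ` on sequences:
`(T b) n = b (p n) + ψ [p ∣ n] b (n / p)`. -/
def heckeSeq (p : ℕ) (ψ : ℂ) : (ℕ → ℂ) →ₗ[ℂ] (ℕ → ℂ) where
  toFun b n := b (p * n) + ψ * (if p ∣ n then b (n / p) else 0)
  map_add' b c := by
    funext n
    simp only [Pi.add_apply]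
    split_ifs <;> ring
  map_smul' c b := by
    funext n
    simp only [Pi.smul_apply, smul_eq_mul, RingHom.id_apply]
    split_ifs <;> ring

theorem heckeSeq_apply (p : ℕ) (ψ : ℂ) (b : ℕ → ℂ) (n : ℕ) :
    heckeSeq p ψ b n = b (p * n) + ψ * (if p ∣ n then b (n / p) else 0) := rfl

/-- **Independence of eigen-sequences**: nonzero simultaneous eigenvectors of a family of
operators with pairwise distinct systems of eigenvalues are linearly independent. -/
theorem int_linearIndependent {V ι κ : Type*} [AddCommGroup V] [Module ℂ V]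
    (T : κ → V →ₗ[ℂ] V) (b : ι → V) (lam : ι → κ → ℂ)
    (hb : ∀ i, b i ≠ 0) (heig : ∀ i q, T q (b i) = lam i q • b i)
    (hne : ∀ i j, i ≠ j → ∃ q, lam i q ≠ lam j q) : LinearIndependent ℂ b := by
  classical
  rw [linearIndependent_iff']
  intro s
  induction s using Finset.induction_on with
  | empty => intro g _ i hi; simp at hi
  | insert i₀ s hi₀ ih =>
    intro g hg i hi
    have key : ∀ j ∈ s, g j = 0 := by
      intro j hj
      have hji : j ≠ i₀ := fun h => hi₀ (h ▸ hj)
      obtain ⟨q, hq⟩ := hne j i₀ hji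
      have h1 : ∑ l ∈ s, (g l * (lam l q - lam i₀ q)) • b l = 0 := by
        have h2 := congrArg (fun v => T q v - lam i₀ q • v) hg
        simp only [map_sum, map_smul, heig, smul_zero, sub_zero, Finset.smul_sum,
          map_zero] at h2
        rw [← Finset.sum_sub_distrib, Finset.sum_insert hi₀] at h2
        simp only [smul_smul] at h2
        rw [mul_comm (lam i₀ q) (g i₀), sub_self, zero_add] at h2
        rw [← h2]
        refine Finset.sum_congr rfl fun l _ => ?_
        rw [← sub_smul]
        congr 1
        ring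
      have h3 := ih _ h1 j hj
      rcases mul_eq_zero.mp h3 with h | h
      · exact h
      · exact absurd (sub_eq_zero.mp h) hq
    rcases Finset.mem_insert.mp hi with rfl | hi
    · rw [Finset.sum_insert hi₀, Finset.sum_eq_zero (fun l hl => by rw [key l hl, zero_smul]),
        add_zero] at hg
      rcases smul_eq_zero.mp hg with h | h
      · exact h
      · exact absurd h (hb _)
    · exact key i hi

end Fermat.Agent.S48Int
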