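/-
S48 (Deligne–Serre), seat INT (helper98): decomposition of the `q`-coefficients along an integral
spanning family, values of Dirichlet characters, integrality of the `a_p`.
-/
import Mathlib
import Fermat.Agent.S48.Conj
import Fermat.Agent.S48.Int.Formal

set_option autoImplicit false

noncomputable section

namespace Fermat.Agent.S48Int

open CongruenceSubgroup ModularFormClass UpperHalfPlane Fermat.Agent.S48

/-- the `q`-coefficients of a form in the span of integral forms are `ℂ`-combinations of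
finitely many integer sequences. -/
theorem int_exists_decomp (hIS : IntStructStatement) (N : ℕ) [NeZero N]
    (f : CuspForm (Gamma1 N) 1) :
    ∃ (r : ℕ) (x : Fin r → ℂ) (m : Fin r → ℕ → ℤ),
      ∀ n : ℕ, qCoeff (⇑f) n = ∑ i, x i * (m i n : ℂ) := by
  classical
  obtain ⟨r, x, g, hg⟩ := Submodule.mem_span_set'.mp (hIS N f)
  have hm : ∀ i : Fin r, ∃ m : ℕ → ℤ, ∀ n, qCoeff (⇑(g i : CuspForm (Gamma1 N) 1)) n = (m n : ℂ) :=
    fun i => ⟨fun n => Classical.choose ((g i).2 n), fun n => Classical.choose_spec ((g i).2 n)⟩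
  choose m hm using hm
  refine ⟨r, x, m, fun n => ?_⟩
  have h1 : qCoeffLin N n f = ∑ i, x i * qCoeffLin N n (g i : CuspForm (Gamma1 N) 1) := by
    rw [← hg, map_sum]
    refine Finset.sum_congr rfl fun i _ => ?_
    rw [map_smul, smul_eq_mul]
  rw [qCoeffLin_apply] at h1
  rw [h1]
  refine Finset.sum_congr rfl fun i _ => ?_
  rw [qCoeffLin_apply, hm]

/-- a combination of integer sequences has values in the `ℤ`-span of the coefficients. -/
theorem int_mem_span {r : ℕ} (x : Fin r → ℂ) (m : Fin r → ℤ) :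
    ∑ i, x i * (m i : ℂ) ∈ Submodule.span ℤ (Set.range x) := by
  refine Submodule.sum_mem _ fun i _ => ?_
  have : x i * (m i : ℂ) = m i • x i := by
    rw [zsmul_eq_mul, mul_comm]
  rw [this]
  exact Submodule.smul_mem _ _ (Submodule.subset_span ⟨i, rfl⟩)

/-- the values of a Dirichlet character at units are roots of unity. -/
theorem int_char_pow_eq_one {N : ℕ} [NeZero N] (ε : DirichletCharacter ℂ N) (u : (ZMod N)ˣ) :
    ε (u : ZMod N) ^ Fintype.card (ZMod N)ˣ = 1 := by
  rw [← map_pow, ← Units.val_pow_eq_pow_val, pow_card_eq_one, Units.val_one, map_one]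

/-- all values `z` of a Dirichlet character satisfy `z ^ (n₀ + 1) = z`. -/
theorem int_char_pow_succ {N : ℕ} [NeZero N] (ε : DirichletCharacter ℂ N) (z : ZMod N) :
    ε z ^ (Fintype.card (ZMod N)ˣ + 1) = ε z := by
  by_cases hz : IsUnit z
  · obtain ⟨u, rfl⟩ := hz
    rw [pow_succ, int_char_pow_eq_one, one_mul]
  · rw [MulChar.map_nonunit ε hz, zero_pow (Nat.succ_ne_zero _)]

/-- the value of `ε` at a prime not dividing the level is a root of unity. -/
theorem int_char_prime_pow {N : ℕ} [NeZero N] (ε : DirichletCharacter ℂ N) {p : ℕ}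
    (hp : p.Prime) (hpN : ¬ p ∣ N) : ε (p : ZMod N) ^ Fintype.card (ZMod N)ˣ = 1 := by
  have hcop : Nat.Coprime p N := (Nat.Prime.coprime_iff_not_dvd hp).mpr hpN
  have h := int_char_pow_eq_one ε (ZMod.unitOfCoprime p hcop)
  rwa [ZMod.coe_unitOfCoprime] at h

/-- **INT, part 1**: the `a_p` are algebraic integers. -/
theorem int_isIntegral (N : ℕ) [NeZero N] (ε : DirichletCharacter ℂ N) (a : ℕ → ℂ)
    (hH : HeckeRel N ε a) {r : ℕ} (x : Fin r → ℂ) (m : Fin r → ℕ → ℤ)
    (ham : ∀ n, a n = ∑ i, x i * (m i n : ℂ)) {p : ℕ} (hp : p.Prime) (hpN : ¬ p ∣ N) :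
    IsIntegral ℤ (a p) := by
  refine int_isIntegral_of_span x a (fun n => ?_) (ε (p : ZMod N)) (Fintype.card (ZMod N)ˣ)
    Fintype.card_pos (int_char_prime_pow ε hp hpN) p hp.one_lt hH.1 (hH.2 p hp hpN)
  rw [ham n]
  exact int_mem_span x fun i => m i n

end Fermat.Agent.S48Int
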