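/-
S48 (Deligne–Serre), seat INT (helper98): the `a_p` (`p ∤ N`) lie in a number field.
The conjugate sequences `τ ∘ a` (`τ` a ring endomorphism of `ℂ`) are eigen-sequences of the
formal Hecke operators in a space of dimension `≤ r`; embeddings of `ℚ(ε, a_p : p ∈ T)` with
the same restriction to the values of `ε` give pairwise distinct systems of eigenvalues, hence
linearly independent sequences.  So the degrees of the fields `ℚ(ε, a_p : p ∈ T)` are bounded.
-/
import Mathlib
import Fermat.Agent.S48.EmbExt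
import Fermat.Agent.S48.Int.Decomp

set_option autoImplicit false

noncomputable section

namespace Fermat.Agent.S48Int

open CongruenceSubgroup Fermat.Agent.S48

/-- two ring homomorphisms on `ℚ(S)` which agree on `S` are equal. -/
theorem int_ringHom_ext {S : Set ℂ} (φ φ' : IntermediateField.adjoin ℚ S →+* ℂ)
    (h : ∀ x (hx : x ∈ S), φ ⟨x, IntermediateField.subset_adjoin ℚ S hx⟩ =
      φ' ⟨x, IntermediateField.subset_adjoin ℚ S hx⟩) : φ = φ' := by
  ext ⟨y, hy⟩
  induction hy using IntermediateField.adjoin_induction with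
  | mem x hx => exact h x hx
  | algebraMap q =>
    have : (⟨algebraMap ℚ ℂ q, IntermediateField.algebraMap_mem _ q⟩ :
        IntermediateField.adjoin ℚ S) = ((q : ℚ) : IntermediateField.adjoin ℚ S) := by
      apply Subtype.ext
      simp
    rw [this, map_ratCast, map_ratCast]
  | add x y hx hy ihx ihy =>
    have : (⟨x + y, add_mem hx hy⟩ : IntermediateField.adjoin ℚ S) = ⟨x, hx⟩ + ⟨y, hy⟩ := rfl
    rw [this, map_add, map_add, ihx, ihy]
  | inv x hx ih =>
    have : (⟨x⁻¹, inv_mem hx⟩ : IntermediateField.adjoin ℚ S) = (⟨x, hx⟩)⁻¹ := rfl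
    rw [this, map_inv₀, map_inv₀, ih]
  | mul x y hx hy ihx ihy =>
    have : (⟨x * y, mul_mem hx hy⟩ : IntermediateField.adjoin ℚ S) = ⟨x, hx⟩ * ⟨y, hy⟩ := rfl
    rw [this, map_mul, map_mul, ihx, ihy]

section Data

variable (N : ℕ) [NeZero N] (ε : DirichletCharacter ℂ N) (a : ℕ → ℂ)

open Classical in
/-- the generators: the values of `ε` and the `a p`, `p ∈ T` a prime not dividing `N`. -/
def intGens (T : Finset ℕ) : Finset ℂ :=
  (Finset.univ.image fun z : ZMod N => ε z) ∪
    ((T.filter fun p => p.Prime ∧ ¬ p ∣ N).image a)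

/-- the field `ℚ(ε, a_p : p ∈ T)`. -/
def intField (T : Finset ℕ) : IntermediateField ℚ ℂ :=
  IntermediateField.adjoin ℚ (intGens N ε a T : Set ℂ)

variable {N ε a}

theorem int_char_mem (T : Finset ℕ) (z : ZMod N) : ε z ∈ intField N ε a T := by
  classical
  refine IntermediateField.subset_adjoin ℚ _ ?_
  rw [intGens, Finset.coe_union]
  exact Or.inl (Finset.mem_coe.mpr (Finset.mem_image_of_mem _ (Finset.mem_univ z)))

theorem int_coeff_mem {T : Finset ℕ} {p : ℕ} (hpT : p ∈ T) (hp : p.Prime) (hpN : ¬ p ∣ N) :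
    a p ∈ intField N ε a T := by
  classical
  refine IntermediateField.subset_adjoin ℚ _ ?_
  rw [intGens, Finset.coe_union]
  exact Or.inr (Finset.mem_coe.mpr
    (Finset.mem_image_of_mem _ (Finset.mem_filter.mpr ⟨hpT, hp, hpN⟩)))

theorem int_field_mono {T T' : Finset ℕ} (h : T ⊆ T') :
    intField N ε a T ≤ intField N ε a T' := by
  classical
  refine IntermediateField.adjoin.mono ℚ _ _ ?_
  intro y hy
  rw [intGens, Finset.coe_union] at hy ⊢
  rcases hy with hy | hy
  · exact Or.inl hy
  · refine Or.inr ?_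
    obtain ⟨p, hp, rfl⟩ := Finset.mem_image.mp (Finset.mem_coe.mp hy)
    obtain ⟨hpT, hp'⟩ := Finset.mem_filter.mp hp
    exact Finset.mem_coe.mpr (Finset.mem_image_of_mem _ (Finset.mem_filter.mpr ⟨h hpT, hp'⟩))

theorem int_char_isIntegral (z : ZMod N) : IsIntegral ℤ (ε z) := by
  by_cases hz : IsUnit z
  · obtain ⟨u, rfl⟩ := hz
    refine IsIntegral.of_pow (Fintype.card_pos (α := (ZMod N)ˣ)) ?_
    rw [int_char_pow_eq_one]
    exact isIntegral_one
  · rw [MulChar.map_nonunit ε hz]
    exact isIntegral_zero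

theorem int_field_finiteDimensional (hint : ∀ p : ℕ, p.Prime → ¬ p ∣ N → IsIntegral ℤ (a p))
    (T : Finset ℕ) : FiniteDimensional ℚ (intField N ε a T) := by
  classical
  haveI : Finite (↑(intGens N ε a T : Set ℂ)) := (intGens N ε a T).finite_toSet.to_subtype
  refine IntermediateField.finiteDimensional_adjoin fun y hy => ?_
  rw [intGens, Finset.coe_union] at hy
  rcases hy with hy | hy
  · obtain ⟨z, -, rfl⟩ := Finset.mem_image.mp (Finset.mem_coe.mp hy)
    exact (int_char_isIntegral z).tower_top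
  · obtain ⟨p, hp, rfl⟩ := Finset.mem_image.mp (Finset.mem_coe.mp hy)
    obtain ⟨-, hp1, hp2⟩ := Finset.mem_filter.mp hp
    exact (hint p hp1 hp2).tower_top

end Data

section Bound

variable {N : ℕ} [NeZero N] {ε : DirichletCharacter ℂ N} {a : ℕ → ℂ}

/-- a finite set containing all conjugates of the values of the Dirichlet characters mod `N`. -/
def intVals (N : ℕ) [NeZero N] : Finset ℂ :=
  insert 0 (Polynomial.nthRootsFinset (Fintype.card (ZMod N)ˣ) (1 : ℂ))

theorem int_conj_char_mem (τ : ℂ →+* ℂ) (z : ZMod N) : τ (ε z) ∈ intVals N := by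
  by_cases hz : IsUnit z
  · obtain ⟨u, rfl⟩ := hz
    refine Finset.mem_insert_of_mem ?_
    rw [Polynomial.mem_nthRootsFinset Fintype.card_pos, ← map_pow, int_char_pow_eq_one, map_one]
  · rw [MulChar.map_nonunit ε hz, map_zero]
    exact Finset.mem_insert_self _ _

/-- the conjugate sequence is an eigen-sequence of the formal Hecke operators of the conjugate
character. -/
theorem int_conj_eigen (hH : HeckeRel N ε a) (τ : ℂ →+* ℂ) {q : ℕ} (hq : q.Prime)
    (hqN : ¬ q ∣ N) :
    heckeSeq q (τ (ε (q : ZMod N))) (fun n => τ (a n)) = τ (a q) • fun n => τ (a n) := by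
  funext n
  rw [heckeSeq_apply, Pi.smul_apply, smul_eq_mul, ← map_mul, ← hH.2 q hq hqN n, map_add, map_mul]
  split_ifs
  · rfl
  · rw [map_zero]

theorem int_conj_mem_span {r : ℕ} (x : Fin r → ℂ) (m : Fin r → ℕ → ℤ)
    (ham : ∀ n, a n = ∑ i, x i * (m i n : ℂ)) (τ : ℂ →+* ℂ) :
    (fun n => τ (a n)) ∈
      Submodule.span ℂ (Set.range fun i : Fin r => fun n : ℕ => (m i n : ℂ)) := by
  have : (fun n => τ (a n)) = ∑ i, τ (x i) • (fun n : ℕ => (m i n : ℂ)) := by
    funext n
    rw [ham n, map_sum, Finset.sum_apply]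
    refine Finset.sum_congr rfl fun i _ => ?_
    rw [map_mul, map_intCast, Pi.smul_apply, smul_eq_mul]
  rw [this]
  exact Submodule.sum_mem _ fun i _ => Submodule.smul_mem _ _ (Submodule.subset_span ⟨i, rfl⟩)

/-- **the degrees of the fields `ℚ(ε, a_p : p ∈ T)` are bounded**. -/
theorem int_finrank_le (hH : HeckeRel N ε a) {r : ℕ} (x : Fin r → ℂ) (m : Fin r → ℕ → ℤ)
    (ham : ∀ n, a n = ∑ i, x i * (m i n : ℂ))
    (hint : ∀ p : ℕ, p.Prime → ¬ p ∣ N → IsIntegral ℤ (a p)) (T : Finset ℕ) :
    Module.finrank ℚ (intField N ε a T) ≤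
      r * (Fintype.piFinset fun _ : ZMod N => intVals N).card := by
  classical
  haveI := int_field_finiteDimensional (ε := ε) hint T
  haveI : NumberField (intField N ε a T) :=
    { to_charZero := inferInstance, to_finiteDimensional := inferInstance }
  rw [← NumberField.Embeddings.card (intField N ε a T) ℂ, ← Finset.card_univ]
  have hext : ∀ φ : intField N ε a T →+* ℂ,
      ∃ τ : ℂ →+* ℂ, ∀ y : intField N ε a T, τ (y : ℂ) = φ y :=
    fun φ => exists_ringHom_extends _ φ
  choose τ hτ using hext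
  let f : (intField N ε a T →+* ℂ) → (ZMod N → ℂ) := fun φ z => τ φ (ε z)
  have hf : ∀ φ ∈ (Finset.univ : Finset (intField N ε a T →+* ℂ)),
      f φ ∈ Fintype.piFinset fun _ : ZMod N => intVals N := by
    intro φ _
    rw [Fintype.mem_piFinset]
    exact fun z => int_conj_char_mem (τ φ) z
  refine Finset.card_le_mul_card_image_of_maps_to hf r fun ψ _ => ?_
  set F := (Finset.univ.filter fun φ : intField N ε a T →+* ℂ => f φ = ψ) with hF
  have hli : LinearIndependent ℂ (fun φ : F => fun n => τ φ.1 (a n)) := by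
    refine int_linearIndependent (κ := {q : ℕ // q.Prime ∧ ¬ q ∣ N})
      (fun q => heckeSeq q.1 (ψ (q.1 : ZMod N))) _ (fun φ q => τ φ.1 (a q.1)) ?_ ?_ ?_
    · intro φ h
      have h1 := congrFun h 1
      simp only [Pi.zero_apply] at h1
      rw [hH.1, map_one] at h1
      exact one_ne_zero h1
    · intro φ q
      have hφ : f φ.1 = ψ := (Finset.mem_filter.mp φ.2).2
      rw [← hφ]
      exact int_conj_eigen hH (τ φ.1) q.2.1 q.2.2
    · intro φ φ' hne
      by_contra hall
      push_neg at hall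
      apply hne
      apply Subtype.ext
      refine int_ringHom_ext (S := (intGens N ε a T : Set ℂ)) φ.1 φ'.1 fun y hy => ?_
      refine (hτ φ.1 ⟨y, IntermediateField.subset_adjoin ℚ _ hy⟩).symm.trans
        (Eq.trans ?_ (hτ φ'.1 ⟨y, IntermediateField.subset_adjoin ℚ _ hy⟩))
      show τ φ.1 y = τ φ'.1 y
      rw [intGens, Finset.coe_union] at hy
      rcases hy with hy | hy
      · obtain ⟨z, -, rfl⟩ := Finset.mem_image.mp (Finset.mem_coe.mp hy)
        have h1 : f φ.1 = ψ := (Finset.mem_filter.mp φ.2).2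
        have h2 : f φ'.1 = ψ := (Finset.mem_filter.mp φ'.2).2
        exact (congrFun h1 z).trans (congrFun h2 z).symm
      · obtain ⟨p, hp, rfl⟩ := Finset.mem_image.mp (Finset.mem_coe.mp hy)
        obtain ⟨-, hp1, hp2⟩ := Finset.mem_filter.mp hp
        exact hall ⟨p, hp1, hp2⟩
  have hle := linearIndependent_le_span' _ hli
    (Set.range fun i : Fin r => fun n : ℕ => (m i n : ℂ)) (by
      rintro _ ⟨φ, rfl⟩
      exact int_conj_mem_span x m ham (τ φ.1))
  rw [Cardinal.mk_coe_finset] at hle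
  have h2 : Fintype.card (Set.range fun i : Fin r => fun n : ℕ => (m i n : ℂ)) ≤ r := by
    simpa using Fintype.card_range_le (fun i : Fin r => fun n : ℕ => (m i n : ℂ))
  exact (Nat.cast_le.mp hle).trans h2

/-- **INT, part 2**: the `a_p`, `p ∤ N`, lie in a number field. -/
theorem int_exists_field (hH : HeckeRel N ε a) {r : ℕ} (x : Fin r → ℂ) (m : Fin r → ℕ → ℤ)
    (ham : ∀ n, a n = ∑ i, x i * (m i n : ℂ))
    (hint : ∀ p : ℕ, p.Prime → ¬ p ∣ N → IsIntegral ℤ (a p)) :
    ∃ K : IntermediateField ℚ ℂ, FiniteDimensional ℚ K ∧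
      ∀ p : ℕ, p.Prime → ¬ p ∣ N → a p ∈ K := by
  classical
  set B := r * (Fintype.piFinset fun _ : ZMod N => intVals N).card with hB
  let P : ℕ → Prop := fun k => ∃ T : Finset ℕ, Module.finrank ℚ (intField N ε a T) = k
  have hP0 : P (Module.finrank ℚ (intField N ε a ∅)) := ⟨∅, rfl⟩
  have hle0 : Module.finrank ℚ (intField N ε a ∅) ≤ B := int_finrank_le hH x m ham hint ∅
  obtain ⟨T₀, hT₀⟩ := Nat.findGreatest_spec (P := P) hle0 hP0
  have hmax : ∀ T, Module.finrank ℚ (intField N ε a T) ≤ Nat.findGreatest P B := fun T =>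
    Nat.le_findGreatest (int_finrank_le hH x m ham hint T) ⟨T, rfl⟩
  refine ⟨intField N ε a T₀, int_field_finiteDimensional hint T₀, fun p hp hpN => ?_⟩
  have hmono : intField N ε a T₀ ≤ intField N ε a (insert p T₀) :=
    int_field_mono (Finset.subset_insert _ _)
  have := int_field_finiteDimensional (ε := ε) hint (insert p T₀)
  have heq : intField N ε a T₀ = intField N ε a (insert p T₀) :=
    IntermediateField.eq_of_le_of_finrank_le hmono (by rw [hT₀]; exact hmax _)
  rw [heq]
  exact int_coeff_mem (Finset.mem_insert_self _ _) hp hpN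

end Bound

end Fermat.Agent.S48Int
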